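import Mathlib
import Fermat.Agent.S20.Reduced.Lattice
import Fermat.Agent.S20.Dual.Places

/-!
# S20 / (L-alg) count: the tame lattices `C` (finite places) and `C_∞` (places over infinity)

`dw_Cfin x = {h | ord_v h ≥ 1 - e_v at all finite v}` and
`dw_Cinf x r = x ^ r • {h | ord_v h ≥ 1 - e_v at all v over infinity}`,
as `K`-subspaces of `F`, in the valuation shapes of the conclusions of (b1)-(b4).
-/

set_option autoImplicit false

namespace Fermat.Agent.S20

open AlgebraicCurve IntermediateField Fermat.Agent.S24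

universe u v
variable {K : Type u} {F : Type v} [Field K] [Field F] [Algebra K F]

/-- `h` with `ord_v h ≥ 1 - e_v` at every finite place `v` (`e_v = ord_v (x - c)`). -/
def dw_Cfin (K : Type u) {F : Type v} [Field K] [Field F] [Algebra K F] (x : F) :
    Submodule K F where
  carrier := {h | ∀ (v : Place K F) (c : K), 0 < v.ord (x - algebraMap K F c) →
    v.adicValuation (h * (x - algebraMap K F c)) < 1}
  add_mem' := fun {a b} ha hb v c hvc => by
    rw [add_mul]
    exact lt_of_le_of_lt (Valuation.map_add _ _ _) (max_lt (ha v c hvc) (hb v c hvc))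
  zero_mem' := fun v c _ => by simp
  smul_mem' := fun a h hh v c hvc => by
    rw [Algebra.smul_def, mul_assoc, map_mul]
    have h1 : v.adicValuation (algebraMap K F a) ≤ 1 :=
      (dw_mem_iff_adicValuation_le_one v _).mp (v.algebraMap_mem' a)
    calc v.adicValuation (algebraMap K F a) * v.adicValuation (h * (x - algebraMap K F c))
        ≤ 1 * v.adicValuation (h * (x - algebraMap K F c)) := mul_le_mul_left h1 _
      _ < 1 := by rw [one_mul]; exact hh v c hvc

theorem dw_mem_Cfin {x h : F} :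
    h ∈ dw_Cfin K x ↔ ∀ (v : Place K F) (c : K), 0 < v.ord (x - algebraMap K F c) →
      v.adicValuation (h * (x - algebraMap K F c)) < 1 := Iff.rfl

/-- `h` with `ord_v (h x^{-r}) ≥ 1 - e_v` at every place `v` over infinity (`e_v = - ord_v x`). -/
def dw_Cinf (K : Type u) {F : Type v} [Field K] [Field F] [Algebra K F] (x : F) (r : ℤ) :
    Submodule K F where
  carrier := {h | ∀ v : Place K F, v.ord x < 0 → v.adicValuation (h * x ^ (-r) * x⁻¹) < 1}
  add_mem' := fun {a b} ha hb v hv => by
    rw [add_mul, add_mul]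
    exact lt_of_le_of_lt (Valuation.map_add _ _ _) (max_lt (ha v hv) (hb v hv))
  zero_mem' := fun v _ => by simp
  smul_mem' := fun a h hh v hv => by
    rw [Algebra.smul_def, mul_assoc, mul_assoc, map_mul]
    have h1 : v.adicValuation (algebraMap K F a) ≤ 1 :=
      (dw_mem_iff_adicValuation_le_one v _).mp (v.algebraMap_mem' a)
    calc v.adicValuation (algebraMap K F a) * v.adicValuation (h * (x ^ (-r) * x⁻¹))
        ≤ 1 * v.adicValuation (h * (x ^ (-r) * x⁻¹)) := mul_le_mul_left h1 _
      _ < 1 := by rw [one_mul, ← mul_assoc]; exact hh v hv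

theorem dw_mem_Cinf {x h : F} {r : ℤ} :
    h ∈ dw_Cinf K x r ↔ ∀ v : Place K F, v.ord x < 0 →
      v.adicValuation (h * x ^ (-r) * x⁻¹) < 1 := Iff.rfl

/-- `B ⊆ C`. -/
theorem dw_B_le_Cfin (x : F) : (dw_B K x).toSubmodule ≤ dw_Cfin K x := by
  intro f hf v c hvc
  have hxv : x ∈ v.toValuationSubring := dw_mem_of_ord_sub_pos v hvc
  have hfv : f ∈ v.toValuationSubring := hf v hxv
  have hne : x - algebraMap K F c ≠ 0 := by
    intro h0
    rw [h0] at hvc
    simp at hvc
  rw [map_mul]
  have h1 : v.adicValuation f ≤ 1 := (dw_mem_iff_adicValuation_le_one v _).mp hfv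
  have h2 : v.adicValuation (x - algebraMap K F c) < 1 :=
    (dw_adicValuation_lt_one_iff v hne).mpr hvc
  calc v.adicValuation f * v.adicValuation (x - algebraMap K F c)
      ≤ 1 * v.adicValuation (x - algebraMap K F c) := mul_le_mul_left h1 _
    _ < 1 := by rw [one_mul]; exact h2

/-- `x^r B_∞ ⊆ x^r C_∞`. -/
theorem dw_Binf_le_Cinf (x : F) (r : ℤ) : dw_Binf K x (-r) ≤ dw_Cinf K x r := by
  intro f hf v hv
  have hx0 : x ≠ 0 := by
    rintro rfl
    simp at hv
  have hxv : x ∉ v.toValuationSubring := (dw_not_mem_iff_ord_neg v hx0).mpr hv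
  have hfv : f * x ^ (-r) ∈ v.toValuationSubring := hf v hxv
  rw [map_mul]
  have h1 : v.adicValuation (f * x ^ (-r)) ≤ 1 := (dw_mem_iff_adicValuation_le_one v _).mp hfv
  have h2 : v.adicValuation x⁻¹ < 1 := by
    rw [dw_adicValuation_lt_one_iff v (inv_ne_zero hx0), v.ord_inv]
    omega
  calc v.adicValuation (f * x ^ (-r)) * v.adicValuation x⁻¹
      ≤ 1 * v.adicValuation x⁻¹ := mul_le_mul_left h1 _
    _ < 1 := by rw [one_mul]; exact h2

/-- `x⁻¹ • x^r C_∞ ⊆ x^r B_∞`. -/
theorem dw_inv_mul_mem_Binf {x h : F} {r : ℤ} (hh : h ∈ dw_Cinf K x r) :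
    x⁻¹ * h ∈ dw_Binf K x (-r) := by
  intro v hv
  have hx0 : x ≠ 0 := by
    rintro rfl
    exact hv v.toValuationSubring.zero_mem
  have hv' : v.ord x < 0 := (dw_not_mem_iff_ord_neg v hx0).mp hv
  have := hh v hv'
  rw [dw_mem_iff_adicValuation_le_one]
  have h2 : x⁻¹ * h * x ^ (-r) = h * x ^ (-r) * x⁻¹ := by ring
  rw [h2]
  exact this.le

end Fermat.Agent.S20
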