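import Mathlib

set_option autoImplicit false

/-!
# The index formula for two pairs of subspaces

For subspaces `M ≤ M'`, `N ≤ N'` of a `K`-vector space `V` with `M ⊔ N = ⊤`:
`(M' ⊓ N') / (M ⊓ N) ≃ (M' / M) × (N' / N)`, hence, when `M' ⊓ N'` is finite-dimensional,
`dim (M' ⊓ N') = dim (M ⊓ N) + dim (M' / M) + dim (N' / N)`.
-/

namespace Fermat.Agent.S20

open Module

section Index

variable {K V : Type*} [Field K] [AddCommGroup V] [Module K V]

/-- The map `M' ⊓ N' → (M' / M) × (N' / N)`. -/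
noncomputable def dc_indexMap (M M' N N' : Submodule K V) :
    ↥(M' ⊓ N') →ₗ[K] (↥M' ⧸ M.submoduleOf M') × (↥N' ⧸ N.submoduleOf N') :=
  LinearMap.prod
    ((M.submoduleOf M').mkQ ∘ₗ Submodule.inclusion (inf_le_left : M' ⊓ N' ≤ M'))
    ((N.submoduleOf N').mkQ ∘ₗ Submodule.inclusion (inf_le_right : M' ⊓ N' ≤ N'))

theorem dc_indexMap_surjective (M M' N N' : Submodule K V) (hM : M ≤ M') (hN : N ≤ N')
    (htop : M ⊔ N = ⊤) : Function.Surjective (dc_indexMap M M' N N') := by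
  rintro ⟨β', γ'⟩
  obtain ⟨⟨β, hβ⟩, rfl⟩ := Submodule.mkQ_surjective _ β'
  obtain ⟨⟨γ, hγ⟩, rfl⟩ := Submodule.mkQ_surjective _ γ'
  -- `γ - β = f + f'` with `f ∈ M`, `f' ∈ N`
  have hmem : γ - β ∈ M ⊔ N := by rw [htop]; trivial
  obtain ⟨f, hf, f', hf', hsum⟩ := Submodule.mem_sup.mp hmem
  have h1 : β + f ∈ M' := M'.add_mem hβ (hM hf)
  have h2 : β + f ∈ N' := by
    have : β + f = γ - f' := by
      have : f = γ - β - f' := by rw [← hsum]; abel
      rw [this]; abel
    rw [this]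
    exact N'.sub_mem hγ (hN hf')
  refine ⟨⟨β + f, h1, h2⟩, ?_⟩
  apply Prod.ext
  · change (M.submoduleOf M').mkQ ⟨β + f, h1⟩ = (M.submoduleOf M').mkQ ⟨β, hβ⟩
    rw [Submodule.mkQ_apply, Submodule.mkQ_apply, Submodule.Quotient.eq]
    change (⟨β + f, h1⟩ - ⟨β, hβ⟩ : ↥M').1 ∈ M
    simpa using hf
  · change (N.submoduleOf N').mkQ ⟨β + f, h2⟩ = (N.submoduleOf N').mkQ ⟨γ, hγ⟩
    rw [Submodule.mkQ_apply, Submodule.mkQ_apply, Submodule.Quotient.eq]
    change (⟨β + f, h2⟩ - ⟨γ, hγ⟩ : ↥N').1 ∈ N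
    have : β + f - γ = -f' := by
      have : f = γ - β - f' := by rw [← hsum]; abel
      rw [this]; abel
    simp only [AddSubgroupClass.coe_sub]
    rw [this]
    exact N.neg_mem hf'

theorem dc_mem_ker_indexMap (M M' N N' : Submodule K V) (h : ↥(M' ⊓ N')) :
    h ∈ LinearMap.ker (dc_indexMap M M' N N') ↔ (h : V) ∈ M ⊓ N := by
  rw [LinearMap.mem_ker, dc_indexMap, LinearMap.prod_apply]
  change ((M.submoduleOf M').mkQ _, (N.submoduleOf N').mkQ _) = (0, 0) ↔ _
  rw [Prod.mk.injEq]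
  simp only [Submodule.mkQ_apply, Submodule.Quotient.mk_eq_zero]
  rfl

/-- **Index formula.** -/
theorem dc_index_formula (M M' N N' : Submodule K V) (hM : M ≤ M') (hN : N ≤ N')
    (htop : M ⊔ N = ⊤) [FiniteDimensional K ↥(M' ⊓ N')] :
    finrank K ↥(M' ⊓ N')
      = finrank K ↥(M ⊓ N) + finrank K (↥M' ⧸ M.submoduleOf M')
        + finrank K (↥N' ⧸ N.submoduleOf N') := by
  have hsurj := dc_indexMap_surjective M M' N N' hM hN htop
  have h1 := LinearMap.finrank_range_add_finrank_ker (dc_indexMap M M' N N')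
  rw [LinearMap.range_eq_top.mpr hsurj, finrank_top] at h1
  have : FiniteDimensional K ((↥M' ⧸ M.submoduleOf M') × (↥N' ⧸ N.submoduleOf N')) :=
    Module.Finite.of_surjective _ hsurj
  have : FiniteDimensional K (↥M' ⧸ M.submoduleOf M') :=
    Module.Finite.of_surjective (LinearMap.fst K _ (↥N' ⧸ N.submoduleOf N'))
      LinearMap.fst_surjective
  have : FiniteDimensional K (↥N' ⧸ N.submoduleOf N') :=
    Module.Finite.of_surjective (LinearMap.snd K (↥M' ⧸ M.submoduleOf M') _)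
      LinearMap.snd_surjective
  rw [Module.finrank_prod] at h1
  -- the kernel is `M ⊓ N`
  have hle : M ⊓ N ≤ M' ⊓ N' := inf_le_inf hM hN
  have hker : finrank K ↥(LinearMap.ker (dc_indexMap M M' N N')) = finrank K ↥(M ⊓ N) := by
    have e : ↥(LinearMap.ker (dc_indexMap M M' N N')) ≃ₗ[K] ↥(M ⊓ N) :=
      { toFun := fun h => ⟨(h.1 : V), (dc_mem_ker_indexMap M M' N N' h.1).mp h.2⟩
        invFun := fun g => ⟨⟨g.1, hle g.2⟩, (dc_mem_ker_indexMap M M' N N' _).mpr g.2⟩
        map_add' := fun _ _ => rfl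
        map_smul' := fun _ _ => rfl
        left_inv := fun _ => rfl
        right_inv := fun _ => rfl }
    exact e.finrank_eq
  omega

/-! ### Quotients of submodules: tower law, transport, bound by functionals -/

/-- **Tower law** for `X ≤ Y ≤ Z`: `dim Z/X = dim Z/Y + dim Y/X`. -/
theorem dc_finrank_tower (X Y Z : Submodule K V) (hXY : X ≤ Y) (hYZ : Y ≤ Z)
    [FiniteDimensional K (↥Z ⧸ X.submoduleOf Z)] :
    finrank K (↥Z ⧸ X.submoduleOf Z)
      = finrank K (↥Z ⧸ Y.submoduleOf Z) + finrank K (↥Y ⧸ X.submoduleOf Y) := by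
  have hle : X.submoduleOf Z ≤ (Y.submoduleOf Z).comap (LinearMap.id : ↥Z →ₗ[K] ↥Z) := by
    intro z hz
    exact hXY hz
  set φ : (↥Z ⧸ X.submoduleOf Z) →ₗ[K] (↥Z ⧸ Y.submoduleOf Z) :=
    Submodule.mapQ _ _ LinearMap.id hle with hφ
  set ψ : ↥Y →ₗ[K] (↥Z ⧸ X.submoduleOf Z) :=
    (X.submoduleOf Z).mkQ ∘ₗ Submodule.inclusion hYZ with hψ
  have hφsurj : Function.Surjective φ := by
    intro q
    obtain ⟨z, rfl⟩ := Submodule.mkQ_surjective _ q
    exact ⟨(X.submoduleOf Z).mkQ z, rfl⟩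
  have hker : LinearMap.ker φ = LinearMap.range ψ := by
    ext q
    obtain ⟨z, rfl⟩ := Submodule.mkQ_surjective _ q
    rw [LinearMap.mem_ker, LinearMap.mem_range]
    constructor
    · intro h
      have hz : (z : V) ∈ Y := by
        have : (Y.submoduleOf Z).mkQ z = 0 := h
        rw [Submodule.mkQ_apply, Submodule.Quotient.mk_eq_zero] at this
        exact this
      exact ⟨⟨z, hz⟩, rfl⟩
    · rintro ⟨y, hy⟩
      have h1 : (X.submoduleOf Z).mkQ (Submodule.inclusion hYZ y) = (X.submoduleOf Z).mkQ z := hy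
      rw [Submodule.mkQ_apply, Submodule.mkQ_apply, Submodule.Quotient.eq] at h1
      have h2 : ((y : V) - (z : V)) ∈ X := h1
      have hz : (z : V) ∈ Y := by
        have : (z : V) = (y : V) - ((y : V) - (z : V)) := by abel
        rw [this]
        exact Y.sub_mem y.2 (hXY h2)
      change (Y.submoduleOf Z).mkQ z = 0
      rw [Submodule.mkQ_apply, Submodule.Quotient.mk_eq_zero]
      exact hz
  have hkerψ : LinearMap.ker ψ = X.submoduleOf Y := by
    ext y
    rw [LinearMap.mem_ker]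
    change (X.submoduleOf Z).mkQ (Submodule.inclusion hYZ y) = 0 ↔ _
    rw [Submodule.mkQ_apply, Submodule.Quotient.mk_eq_zero]
    rfl
  have h1 := LinearMap.finrank_range_add_finrank_ker φ
  rw [LinearMap.range_eq_top.mpr hφsurj, finrank_top, hker] at h1
  have h2 : finrank K ↥(LinearMap.range ψ) = finrank K (↥Y ⧸ X.submoduleOf Y) := by
    rw [← (LinearMap.quotKerEquivRange ψ).finrank_eq]
    exact (Submodule.quotEquivOfEq _ _ hkerψ).finrank_eq
  omega

/-- In the situation of `dc_finrank_tower`, the smaller quotients are finite-dimensional. -/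
theorem dc_finiteDimensional_tower_top (X Y Z : Submodule K V) (hXY : X ≤ Y)
    [FiniteDimensional K (↥Z ⧸ X.submoduleOf Z)] :
    FiniteDimensional K (↥Z ⧸ Y.submoduleOf Z) := by
  have hle : X.submoduleOf Z ≤ (Y.submoduleOf Z).comap (LinearMap.id : ↥Z →ₗ[K] ↥Z) := by
    intro z hz
    exact hXY hz
  refine Module.Finite.of_surjective (Submodule.mapQ _ _ LinearMap.id hle) ?_
  intro q
  obtain ⟨z, rfl⟩ := Submodule.mkQ_surjective _ q
  exact ⟨(X.submoduleOf Z).mkQ z, rfl⟩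

theorem dc_finiteDimensional_tower_bot (X Y Z : Submodule K V) (hYZ : Y ≤ Z)
    [FiniteDimensional K (↥Z ⧸ X.submoduleOf Z)] :
    FiniteDimensional K (↥Y ⧸ X.submoduleOf Y) := by
  set ψ : ↥Y →ₗ[K] (↥Z ⧸ X.submoduleOf Z) :=
    (X.submoduleOf Z).mkQ ∘ₗ Submodule.inclusion hYZ with hψ
  have hkerψ : LinearMap.ker ψ = X.submoduleOf Y := by
    ext y
    rw [LinearMap.mem_ker]
    change (X.submoduleOf Z).mkQ (Submodule.inclusion hYZ y) = 0 ↔ _
    rw [Submodule.mkQ_apply, Submodule.Quotient.mk_eq_zero]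
    rfl
  have e : (↥Y ⧸ X.submoduleOf Y) ≃ₗ[K] ↥(LinearMap.range ψ) :=
    (Submodule.quotEquivOfEq _ _ hkerψ).symm.trans (LinearMap.quotKerEquivRange ψ)
  exact Module.Finite.equiv e.symm

/-- Transport of a relative quotient along an injective linear map. -/
noncomputable def dc_quotMapEquiv {V' : Type*} [AddCommGroup V'] [Module K V'] (μ : V →ₗ[K] V')
    (hμ : Function.Injective μ) (X Z : Submodule K V) :
    (↥Z ⧸ X.submoduleOf Z) ≃ₗ[K] (↥(Z.map μ) ⧸ (X.map μ).submoduleOf (Z.map μ)) := by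
  let e : ↥Z ≃ₗ[K] ↥(Z.map μ) := Submodule.equivMapOfInjective μ hμ Z
  refine Submodule.Quotient.equiv _ _ e ?_
  ext w
  constructor
  · rintro ⟨z, hz, rfl⟩
    exact ⟨(z : V), hz, rfl⟩
  · intro hw
    obtain ⟨x, hx, hxw⟩ := hw
    obtain ⟨z, hz⟩ := e.surjective w
    have hzx : (z : V) = x := by
      apply hμ
      have : μ (z : V) = (w : V') := by rw [← hz]; rfl
      rw [this, hxw]
      rfl
    refine ⟨z, ?_, hz⟩
    change (z : V) ∈ X
    rw [hzx]
    exact hx

theorem dc_finrank_quot_map {V' : Type*} [AddCommGroup V'] [Module K V'] (μ : V →ₗ[K] V')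
    (hμ : Function.Injective μ) (X Z : Submodule K V) :
    finrank K (↥(Z.map μ) ⧸ (X.map μ).submoduleOf (Z.map μ))
      = finrank K (↥Z ⧸ X.submoduleOf Z) :=
  (dc_quotMapEquiv μ hμ X Z).finrank_eq.symm

/-- **(G-abs), part 1.** If `J` contains the common kernel of finitely many functionals on `B`,
then `dim B/J ≤ #P`. -/
theorem dc_finrank_quotient_le_card {B P : Type*} [AddCommGroup B] [Module K B] [Fintype P]
    (J : Submodule K B) (ev : P → B →ₗ[K] K) (hJ : ∀ f : B, (∀ j, ev j f = 0) → f ∈ J) :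
    FiniteDimensional K (B ⧸ J) ∧ finrank K (B ⧸ J) ≤ Fintype.card P := by
  set E : B →ₗ[K] (P → K) := LinearMap.pi ev with hE
  have hker : LinearMap.ker E ≤ J := by
    intro f hf
    apply hJ
    intro j
    have := congrFun (LinearMap.mem_ker.mp hf) j
    simpa [hE] using this
  -- `B / J` is a quotient of `B / ker E ≃ range E ≤ (P → K)`
  let q : (B ⧸ LinearMap.ker E) →ₗ[K] (B ⧸ J) := Submodule.mapQ _ _ LinearMap.id (by
    intro f hf
    exact hker hf)
  have hq : Function.Surjective q := by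
    intro y
    obtain ⟨f, rfl⟩ := Submodule.mkQ_surjective _ y
    exact ⟨(LinearMap.ker E).mkQ f, rfl⟩
  have e := LinearMap.quotKerEquivRange E
  have hfin : FiniteDimensional K (B ⧸ LinearMap.ker E) := Module.Finite.equiv e.symm
  have h1 : finrank K (B ⧸ LinearMap.ker E) ≤ Fintype.card P := by
    rw [e.finrank_eq]
    have := Submodule.finrank_le (LinearMap.range E)
    rwa [Module.finrank_fintype_fun_eq_card] at this
  have hfin2 : FiniteDimensional K (B ⧸ J) := Module.Finite.of_surjective q hq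
  refine ⟨hfin2, ?_⟩
  exact (LinearMap.finrank_le_finrank_of_surjective hq).trans h1

/-- **(G-abs), part 2.** With `μ` an injective endomorphism ("multiplication by `g`"),
`B ≤ C` and `μ C ≤ B`: `dim C/B + dim B/μC = dim B/μB`. -/
theorem dc_finrank_quot_add (μ : V →ₗ[K] V) (hμ : Function.Injective μ) (B C : Submodule K V)
    (hBC : B ≤ C) (hCB : C.map μ ≤ B)
    [FiniteDimensional K (↥B ⧸ (B.map μ).submoduleOf B)] :
    finrank K (↥C ⧸ B.submoduleOf C) + finrank K (↥B ⧸ (C.map μ).submoduleOf B)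
      = finrank K (↥B ⧸ (B.map μ).submoduleOf B) := by
  have h1 := dc_finrank_tower (B.map μ) (C.map μ) B (Submodule.map_mono hBC) hCB
  rw [dc_finrank_quot_map μ hμ B C] at h1
  omega

/-! ### Final arithmetic -/

/-- If some `a i₀ = 0` then `∑ (a i - 1) ≥ ∑ a i - n + 1` (truncated subtraction inside). -/
theorem dc_sum_pred_ge {n : ℕ} (a : Fin n → ℕ) (i₀ : Fin n) (h0 : a i₀ = 0) :
    ∑ i, a i + 1 ≤ ∑ i, (a i - 1) + n := by
  have h1 : ∀ i, a i ≤ (a i - 1) + 1 := fun i => by omega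
  have h2 : a i₀ + 1 ≤ (a i₀ - 1) + 1 := by omega
  have h3 : ∑ i, a i + 1 ≤ ∑ i, ((a i - 1) + 1) := by
    rw [← Finset.add_sum_erase _ _ (Finset.mem_univ i₀),
      ← Finset.add_sum_erase _ (fun i => (a i - 1) + 1) (Finset.mem_univ i₀)]
    have := Finset.sum_le_sum (s := Finset.univ.erase i₀) (fun i _ => h1 i)
    omega
  rw [Finset.sum_add_distrib] at h3
  simpa using h3

/-- The number of pairs `(i, k)` with `k < a i - 1` (i.e. `k + 2 ≤ a i`) is `∑ (a i - 1)`. -/
theorem dc_card_pairs {n : ℕ} (a : Fin n → ℕ) :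
    Fintype.card ((i : Fin n) × Fin (a i - 1)) = ∑ i, (a i - 1) := by
  rw [Fintype.card_sigma]
  simp

end Index

end Fermat.Agent.S20
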