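import Mathlib
import Fermat.Agent.S24.Hurwitz.Interface
import Fermat.Agent.S20.Count.Index

/-!
# S20 / (L-alg) count: residue functionals at places

For a place `v` of a function field `F` over an algebraically closed field `K`, the residue map
`O_v → K` is `K`-linear with kernel the maximal ideal.  Consequence: for a `K`-subspace `B` of `F`
all of whose elements are regular at the finitely many places in `P`, the subspace `J` of the
elements of `B` vanishing at all places of `P` has `dim B/J ≤ #P`.
-/

set_option autoImplicit false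

namespace Fermat.Agent.S20

open AlgebraicCurve IntermediateField Module Fermat.Agent.S24

universe u v
variable {K : Type u} {F : Type v} [Field K] [Field F] [Algebra K F]

/-- `adicValuation f < 1` iff `f = 0` or `0 < ord f`. -/
theorem dcr_adicValuation_lt_one_iff (v : Place K F) (f : F) :
    v.adicValuation f < 1 ↔ f = 0 ∨ 0 < v.ord f := by
  rcases eq_or_ne f 0 with rfl | hf
  · simp
  · rw [hw_adicValuation_eq_exp v hf, ← WithZero.exp_zero, WithZero.exp_lt_exp]
    simp [hf]

/-- `adicValuation f ≤ 1` iff `f ∈ O_v`. -/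
theorem dcr_adicValuation_le_one_iff (v : Place K F) (f : F) :
    v.adicValuation f ≤ 1 ↔ f ∈ v.toValuationSubring := by
  rcases eq_or_ne f 0 with rfl | hf
  · simp [v.toValuationSubring.zero_mem]
  · rw [hw_mem_iff_ord_nonneg v hf, hw_adicValuation_eq_exp v hf, ← WithZero.exp_zero,
      WithZero.exp_le_exp]
    omega

theorem dcr_mem_of_ord_nonneg (v : Place K F) {f : F} (hf : 0 ≤ v.ord f) :
    f ∈ v.toValuationSubring := by
  rcases eq_or_ne f 0 with rfl | hf0
  · exact v.toValuationSubring.zero_mem
  · exact (hw_mem_iff_ord_nonneg v hf0).mpr hf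

variable [IsAlgClosed K]

/-- The residue functional `O_v → K` at a place. -/
noncomputable def dcr_res (x : F) [Algebra.IsAlgebraic K⟮x⟯ F] (v : Place K F) :
    v.toValuationSubring →ₗ[K] K :=
  (AlgEquiv.ofBijective (Algebra.ofId K v.ResidueField)
    ⟨(algebraMap K v.ResidueField).injective,
      hw_algebraMap_residueField_surjective x v⟩).symm.toLinearMap ∘ₗ
    (IsScalarTower.toAlgHom K v.toValuationSubring v.ResidueField).toLinearMap

theorem dcr_res_eq_zero_iff (x : F) [Algebra.IsAlgebraic K⟮x⟯ F] (v : Place K F)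
    (a : v.toValuationSubring) :
    dcr_res x v a = 0 ↔ a ∈ IsLocalRing.maximalIdeal v.toValuationSubring := by
  rw [dcr_res, LinearMap.comp_apply]
  simp only [AlgEquiv.toLinearMap_apply, AlgHom.toLinearMap_apply]
  rw [map_eq_zero_iff _ (AlgEquiv.injective _)]
  exact IsLocalRing.residue_eq_zero_iff a

theorem dcr_res_eq_zero_iff' (x : F) [Algebra.IsAlgebraic K⟮x⟯ F] (v : Place K F)
    (a : v.toValuationSubring) :
    dcr_res x v a = 0 ↔ v.adicValuation (a : F) < 1 := by
  rw [dcr_res_eq_zero_iff, dcr_adicValuation_lt_one_iff]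
  constructor
  · intro h
    by_cases ha : a = 0
    · left; simp [ha]
    · right; exact hw_ord_pos_of_mem_maximalIdeal v h ha
  · rintro (h | h)
    · have : a = 0 := by ext; simpa using h
      rw [this]; exact Submodule.zero_mem _
    · rw [IsLocalRing.mem_maximalIdeal, mem_nonunits_iff]
      intro hu
      obtain ⟨u, rfl⟩ := hu
      rw [v.ord_coe_unit u] at h
      exact lt_irrefl _ h

/-- The inclusion of a `K`-subspace of `F` contained in `O_v` into `O_v`. -/
noncomputable def dcr_incl (v : Place K F) (B : Submodule K F)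
    (hB : ∀ f ∈ B, f ∈ v.toValuationSubring) : ↥B →ₗ[K] v.toValuationSubring where
  toFun f := ⟨f.1, hB f.1 f.2⟩
  map_add' f g := rfl
  map_smul' c f := by
    ext
    simp [Algebra.smul_def]

/-- **Residue bound.** If all elements of `B` are regular at the places in `P` and `J` contains
all elements of `B` vanishing at all places of `P`, then `dim B/J ≤ #P`. -/
theorem dcr_finrank_quotient_le (x : F) [Algebra.IsAlgebraic K⟮x⟯ F] (B J : Submodule K F)
    (P : Finset (Place K F)) (hB : ∀ f ∈ B, ∀ v ∈ P, 0 ≤ v.ord f)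
    (hJ : ∀ f ∈ B, (∀ v ∈ P, v.adicValuation f < 1) → f ∈ J) :
    FiniteDimensional K (↥B ⧸ J.submoduleOf B) ∧
      finrank K (↥B ⧸ J.submoduleOf B) ≤ P.card := by
  classical
  have hB' : ∀ v ∈ P, ∀ f ∈ B, f ∈ v.toValuationSubring :=
    fun v hv f hf => dcr_mem_of_ord_nonneg v (hB f hf v hv)
  have := dc_finrank_quotient_le_card (K := K) (B := ↥B) (P := ↥P) (J.submoduleOf B)
    (fun v => dcr_res x v.1 ∘ₗ dcr_incl v.1 B (hB' v.1 v.2)) (by
      intro f hf
      change f.1 ∈ J
      apply hJ f.1 f.2
      intro v hv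
      have h := hf ⟨v, hv⟩
      rw [LinearMap.comp_apply, dcr_res_eq_zero_iff'] at h
      exact h)
  simpa using this

/-- The same with the vanishing condition written with `ord`. -/
theorem dcr_finrank_quotient_le' (x : F) [Algebra.IsAlgebraic K⟮x⟯ F] (B J : Submodule K F)
    (P : Finset (Place K F)) (hB : ∀ f ∈ B, ∀ v ∈ P, 0 ≤ v.ord f)
    (hJ : ∀ f ∈ B, (∀ v ∈ P, f = 0 ∨ 0 < v.ord f) → f ∈ J) :
    FiniteDimensional K (↥B ⧸ J.submoduleOf B) ∧
      finrank K (↥B ⧸ J.submoduleOf B) ≤ P.card :=
  dcr_finrank_quotient_le x B J P hB (fun f hf h => hJ f hf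
    (fun v hv => (dcr_adicValuation_lt_one_iff v f).mp (h v hv)))

end Fermat.Agent.S20
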