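import Mathlib
import Fermat.Agent.S20.Reduced.Dim
import Fermat.Agent.S20.Count.Index

/-!
# S20 / (L-alg) count: the two elementary quotient dimensions

From the counts (D1) `dw_finrank_inf`, (D2) `dw_sup_eq_top` and the index formula:

* (T1) `dim_K B / gB = n * deg g` for a nonzero polynomial `g = p(x)`;
* (T2) `dim_K x^r B_∞ / x^(r-1) B_∞ = n`.
-/

set_option autoImplicit false

namespace Fermat.Agent.S20

open AlgebraicCurve IntermediateField Polynomial Module
open Fermat.Agent.S24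

universe u v

section Index

variable {K : Type u} {V : Type v} [Field K] [AddCommGroup V] [Module K V]

/-- Under the hypotheses of the index formula, `M'/M` is finite-dimensional. -/
theorem dc_index_finiteDimensional_left (M M' N N' : Submodule K V) (hM : M ≤ M') (hN : N ≤ N')
    (htop : M ⊔ N = ⊤) [FiniteDimensional K ↥(M' ⊓ N')] :
    FiniteDimensional K (↥M' ⧸ M.submoduleOf M') := by
  have hsurj := dc_indexMap_surjective M M' N N' hM hN htop
  refine Module.Finite.of_surjective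
    ((LinearMap.fst K _ _) ∘ₗ dc_indexMap M M' N N') ?_
  intro q
  obtain ⟨h, hh⟩ := hsurj (q, 0)
  exact ⟨h, by rw [LinearMap.comp_apply, hh]; rfl⟩

/-- Under the hypotheses of the index formula, `N'/N` is finite-dimensional. -/
theorem dc_index_finiteDimensional_right (M M' N N' : Submodule K V) (hM : M ≤ M') (hN : N ≤ N')
    (htop : M ⊔ N = ⊤) [FiniteDimensional K ↥(M' ⊓ N')] :
    FiniteDimensional K (↥N' ⧸ N.submoduleOf N') := by
  have hsurj := dc_indexMap_surjective M M' N N' hM hN htop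
  refine Module.Finite.of_surjective
    ((LinearMap.snd K _ _) ∘ₗ dc_indexMap M M' N N') ?_
  intro q
  obtain ⟨h, hh⟩ := hsurj (0, q)
  exact ⟨h, by rw [LinearMap.comp_apply, hh]; rfl⟩

/-- The quotient of a submodule by itself has dimension zero. -/
theorem dc_finrank_quot_self (M : Submodule K V) :
    finrank K (↥M ⧸ M.submoduleOf M) = 0 := by
  rw [Submodule.submoduleOf_self]
  exact finrank_zero_of_subsingleton

end Index

variable {K : Type u} {F : Type v} [Field K] [Field F] [Algebra K F]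

/-- Multiplication by a nonzero element is injective. -/
theorem dw_mulLeft_injective {g : F} (hg : g ≠ 0) :
    Function.Injective (LinearMap.mulLeft K g) := by
  intro a b hab
  simpa [hg] using hab

/-- Multiplication by a nonzero element is surjective. -/
theorem dw_map_mulLeft_top {g : F} (hg : g ≠ 0) :
    (⊤ : Submodule K F).map (LinearMap.mulLeft K g) = ⊤ := by
  rw [eq_top_iff]
  intro y _
  exact ⟨g⁻¹ * y, trivial, by simp [hg]⟩

/-- Multiplication by an element which is a unit times `x ^ d` at infinity shifts the filtration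
`dw_Binf`. -/
theorem dw_map_mulLeft_Binf {x g : F} {d : ℤ} (hg0 : g ≠ 0) (hg : dw_UnitInf K x g d) (m : ℤ) :
    (dw_Binf K x (m + d)).map (LinearMap.mulLeft K g) = dw_Binf K x m := by
  ext y
  constructor
  · rintro ⟨f, hf, rfl⟩
    exact (dw_mul_mem_Binf_iff hg).mpr hf
  · intro hy
    refine ⟨g⁻¹ * y, ?_, by simp [hg0]⟩
    apply (dw_mul_mem_Binf_iff hg).mp
    have : g * (g⁻¹ * y) = y := by field_simp
    rw [this]
    exact hy

/-- Multiplication by `x⁻¹` maps `x^r B_∞` onto `x^(r-1) B_∞`. -/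
theorem dw_map_inv_Binf {x : F} (hx0 : x ≠ 0) (r : ℤ) :
    (dw_Binf K x (-r)).map (LinearMap.mulLeft K x⁻¹) = dw_Binf K x (-r + 1) := by
  have h := dw_map_mulLeft_Binf (K := K) (x := x) (g := x⁻¹) (d := -1) (inv_ne_zero hx0)
    (dw_unitInf_inv dw_unitInf_self) (-r + 1)
  rw [← h]
  congr 2
  ring

section
variable [IsAlgClosed K] [CharZero K] {x : F} (hx : Transcendental K x) [FiniteDimensional K⟮x⟯ F]
variable {n : ℕ} {b : Basis (Fin n) K⟮x⟯ F} (hb : dw_Reduced x b)

include hx hb in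
/-- **(T2)** `dim_K x^r B_∞ / x^(r-1) B_∞ = n`. -/
theorem dw_finrank_Binf_quot (r : ℤ) (hr : ∀ i, dw_deg K x (b i) ≤ r) :
    FiniteDimensional K
        (↥(dw_Binf K x (-r)) ⧸ (dw_Binf K x (-r + 1)).submoduleOf (dw_Binf K x (-r))) ∧
      finrank K
        (↥(dw_Binf K x (-r)) ⧸ (dw_Binf K x (-r + 1)).submoduleOf (dw_Binf K x (-r))) = n := by
  set Bs := Subalgebra.toSubmodule (dw_B K x) with hBs
  have hr1 : ∀ i, dw_deg K x (b i) ≤ (r - 1) + 1 := fun i => by have := hr i; omega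
  have hr2 : ∀ i, dw_deg K x (b i) ≤ r + 1 := fun i => by have := hr i; omega
  have hneg : -r + 1 = -(r - 1) := by ring
  rw [hneg]
  have htop : Bs ⊔ dw_Binf K x (-(r - 1)) = ⊤ := dw_sup_eq_top hx hb (r - 1) hr1
  have hN : dw_Binf K x (-(r - 1)) ≤ dw_Binf K x (-r) := dw_Binf_anti x (by omega)
  obtain ⟨hfd, hfr⟩ := dw_finrank_inf hx hb r hr2
  obtain ⟨_, hfr1⟩ := dw_finrank_inf hx hb (r - 1) hr1
  have hfdq := dc_index_finiteDimensional_right Bs Bs (dw_Binf K x (-(r - 1)))
    (dw_Binf K x (-r)) le_rfl hN htop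
  refine ⟨hfdq, ?_⟩
  have hidx := dc_index_formula Bs Bs (dw_Binf K x (-(r - 1))) (dw_Binf K x (-r)) le_rfl hN htop
  rw [dc_finrank_quot_self] at hidx
  have hidx' : (finrank K ↥(Bs ⊓ dw_Binf K x (-r)) : ℤ)
      = (finrank K ↥(Bs ⊓ dw_Binf K x (-(r - 1))) : ℤ) +
        (finrank K (↥(dw_Binf K x (-r)) ⧸
          (dw_Binf K x (-(r - 1))).submoduleOf (dw_Binf K x (-r))) : ℤ) := by
    exact_mod_cast hidx
  rw [hfr, hfr1] at hidx'
  have hsum : ∑ i : Fin n, (r - dw_deg K x (b i) + 1)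
      = ∑ i : Fin n, (r - 1 - dw_deg K x (b i) + 1) + n := by
    have h1 : ∀ i : Fin n, r - dw_deg K x (b i) + 1 = (r - 1 - dw_deg K x (b i) + 1) + 1 :=
      fun i => by ring
    rw [Finset.sum_congr rfl (fun i _ => h1 i), Finset.sum_add_distrib]
    simp
  rw [hsum] at hidx'
  have : ((finrank K (↥(dw_Binf K x (-r)) ⧸
          (dw_Binf K x (-(r - 1))).submoduleOf (dw_Binf K x (-r))) : ℕ) : ℤ) = n := by
    linarith
  exact_mod_cast this

include hx hb in
/-- **(T1)** `dim_K B / gB = n * deg g` for `g = p(x)`, `p ≠ 0`. -/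
theorem dw_finrank_B_quot (p : K[X]) (hp : p ≠ 0) :
    FiniteDimensional K
        (↥(Subalgebra.toSubmodule (dw_B K x)) ⧸
          ((Subalgebra.toSubmodule (dw_B K x)).map
            (LinearMap.mulLeft K (aeval x p))).submoduleOf (Subalgebra.toSubmodule (dw_B K x))) ∧
      finrank K
        (↥(Subalgebra.toSubmodule (dw_B K x)) ⧸
          ((Subalgebra.toSubmodule (dw_B K x)).map
            (LinearMap.mulLeft K (aeval x p))).submoduleOf (Subalgebra.toSubmodule (dw_B K x)))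
        = n * p.natDegree := by
  classical
  set Bs := Subalgebra.toSubmodule (dw_B K x) with hBs
  have hg0 : aeval x p ≠ 0 := fun h => hp ((transcendental_iff.mp hx) p h)
  have hgU : dw_UnitInf K x (aeval x p) (p.natDegree : ℤ) := dw_unitInf_aeval hp
  set μ : F →ₗ[K] F := LinearMap.mulLeft K (aeval x p) with hμdef
  have hμ : Function.Injective μ := dw_mulLeft_injective (K := K) hg0
  -- a bound for the exponents
  set r0 : ℤ := ∑ i, dw_deg K x (b i) with hr0def
  have hr0 : ∀ i, dw_deg K x (b i) ≤ r0 := fun i =>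
    Finset.single_le_sum (f := fun i => dw_deg K x (b i))
      (fun j _ => hb.deg_nonneg hx j) (Finset.mem_univ i)
  set sd : ℤ := (p.natDegree : ℤ) with hsd
  have hsd0 : 0 ≤ sd := Int.natCast_nonneg _
  set r : ℤ := r0 + sd with hrdef
  have hr1 : ∀ i, dw_deg K x (b i) ≤ r + 1 := fun i => by have := hr0 i; omega
  have hr2 : ∀ i, dw_deg K x (b i) ≤ r0 + 1 := fun i => by have := hr0 i; omega
  have hM : Bs.map μ ≤ Bs := by
    rintro _ ⟨f, hf, rfl⟩
    exact (dw_B K x).mul_mem (dw_aeval_mem_B p) hf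
  have hmapBinf : (dw_Binf K x (-r0)).map μ = dw_Binf K x (-r) := by
    have := dw_map_mulLeft_Binf (K := K) hg0 hgU (-r)
    rw [← this]
    congr 2
    rw [hrdef]; ring
  have htop0 : Bs ⊔ dw_Binf K x (-r0) = ⊤ := dw_sup_eq_top hx hb r0 hr2
  have htop : Bs.map μ ⊔ dw_Binf K x (-r) = ⊤ := by
    rw [← hmapBinf, ← Submodule.map_sup, htop0, dw_map_mulLeft_top hg0]
  have hinf : Bs.map μ ⊓ dw_Binf K x (-r) = (Bs ⊓ dw_Binf K x (-r0)).map μ := by
    rw [← hmapBinf, Submodule.map_inf μ hμ]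
  obtain ⟨hfd, hfr⟩ := dw_finrank_inf hx hb r hr1
  obtain ⟨_, hfr0⟩ := dw_finrank_inf hx hb r0 hr2
  have hfdq := dc_index_finiteDimensional_left (Bs.map μ) Bs (dw_Binf K x (-r))
    (dw_Binf K x (-r)) hM le_rfl htop
  refine ⟨hfdq, ?_⟩
  have hidx := dc_index_formula (Bs.map μ) Bs (dw_Binf K x (-r)) (dw_Binf K x (-r)) hM le_rfl htop
  rw [dc_finrank_quot_self, hinf,
    ← (Submodule.equivMapOfInjective μ hμ (Bs ⊓ dw_Binf K x (-r0))).finrank_eq] at hidx
  have hidx' : (finrank K ↥(Bs ⊓ dw_Binf K x (-r)) : ℤ)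
      = (finrank K ↥(Bs ⊓ dw_Binf K x (-r0)) : ℤ) +
        (finrank K (↥Bs ⧸ (Bs.map μ).submoduleOf Bs) : ℤ) := by
    exact_mod_cast hidx
  rw [hfr, hfr0] at hidx'
  have hsum : ∑ i : Fin n, (r - dw_deg K x (b i) + 1)
      = ∑ i : Fin n, (r0 - dw_deg K x (b i) + 1) + n * sd := by
    have h1 : ∀ i : Fin n, r - dw_deg K x (b i) + 1 = (r0 - dw_deg K x (b i) + 1) + sd :=
      fun i => by rw [hrdef]; ring
    rw [Finset.sum_congr rfl (fun i _ => h1 i), Finset.sum_add_distrib]
    simp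
  rw [hsum] at hidx'
  have : ((finrank K (↥Bs ⧸ (Bs.map μ).submoduleOf Bs) : ℕ) : ℤ) = ((n * p.natDegree : ℕ) : ℤ) := by
    push_cast
    linarith
  exact_mod_cast this

end

end Fermat.Agent.S20
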