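import Mathlib
import Fermat.Agent.S20.Count.Steps
import Fermat.Agent.S20.Count.Defs
import Fermat.Agent.S20.Count.Residue

/-!
# S20 / (L-alg) count: the branch bound at the finite places

`dim_K C/B ≥ n * #S - ∑_{c ∈ S} #(places over c)` where `C = dw_Cfin K x` is the tame lattice,
`B = dw_B K x`, and `S` contains all branch values of `x`.
-/

set_option autoImplicit false

namespace Fermat.Agent.S20

open AlgebraicCurve IntermediateField Polynomial Module
open Fermat.Agent.S24

universe u v
variable {K : Type u} {F : Type v} [Field K] [Field F] [Algebra K F]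

/-- The branch polynomial `∏_{c ∈ S} (X - c)`. -/
noncomputable def dw_branchPoly (S : Finset K) : K[X] := ∏ c ∈ S, (X - C c)

theorem dw_branchPoly_ne_zero (S : Finset K) : dw_branchPoly S ≠ 0 :=
  (monic_prod_X_sub_C (fun c : K => c) S).ne_zero

theorem dw_natDegree_branchPoly (S : Finset K) : (dw_branchPoly S).natDegree = S.card :=
  natDegree_finsetProd_X_sub_C_eq_card S (fun c : K => c)

theorem dw_aeval_branchPoly (x : F) (S : Finset K) :
    aeval x (dw_branchPoly S) = ∏ c ∈ S, (x - algebraMap K F c) := by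
  simp [dw_branchPoly, map_prod]

/-- A nonzero constant has valuation one. -/
theorem dw_adicValuation_algebraMap (v : Place K F) {a : K} (ha : a ≠ 0) :
    v.adicValuation (algebraMap K F a) = 1 := by
  have ha' : algebraMap K F a ≠ 0 := by simpa using ha
  rw [hw_adicValuation_eq_exp v ha', hw_ord_algebraMap]
  simp

/-- At a place over `c₀`, the function `x - c` is a unit for `c ≠ c₀`. -/
theorem dw_adicValuation_sub_eq_one (v : Place K F) {x : F} {c₀ c : K}
    (h0 : 0 < v.ord (x - algebraMap K F c₀)) (hne : c ≠ c₀) :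
    v.adicValuation (x - algebraMap K F c) = 1 := by
  have hx0 : x - algebraMap K F c₀ ≠ 0 := by
    intro h
    rw [h] at h0
    simp at h0
  have h1 : v.adicValuation (x - algebraMap K F c₀) < 1 :=
    (dw_adicValuation_lt_one_iff v hx0).mpr h0
  have h2 : v.adicValuation (algebraMap K F (c₀ - c)) = 1 :=
    dw_adicValuation_algebraMap v (sub_ne_zero.mpr (Ne.symm hne))
  have h3 : x - algebraMap K F c = (x - algebraMap K F c₀) + algebraMap K F (c₀ - c) := by
    rw [map_sub]; ring
  rw [h3, Valuation.map_add_eq_of_lt_right _ (by rw [h2]; exact h1), h2]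

/-- At a place over `c₀`, the product of the `x - c`, `c ∈ T`, `c₀ ∉ T`, is a unit. -/
theorem dw_adicValuation_prod_eq_one (v : Place K F) {x : F} {c₀ : K}
    (h0 : 0 < v.ord (x - algebraMap K F c₀)) (T : Finset K) (hT : c₀ ∉ T) :
    v.adicValuation (∏ c ∈ T, (x - algebraMap K F c)) = 1 := by
  rw [map_prod]
  refine Finset.prod_eq_one fun c hc => ?_
  exact dw_adicValuation_sub_eq_one v h0 (fun h => hT (h ▸ hc))

section
variable [IsAlgClosed K] [CharZero K] {x : F} (hx : Transcendental K x) [FiniteDimensional K⟮x⟯ F]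

include hx in
/-- Every finite place lies over some value `c`. -/
theorem dw_exists_fiber (v : Place K F) (hv : x ∈ v.toValuationSubring) :
    ∃ c : K, 0 < v.ord (x - algebraMap K F c) := by
  obtain ⟨c, hc | hc⟩ := hw_exists_const x v hv
  · exact absurd (hc ▸ isAlgebraic_algebraMap c) hx
  · exact ⟨c, hc⟩

include hx in
/-- `g • C ⊆ B` for `g = ∏_{c ∈ S} (x - c)`, `S` containing all branch values. -/
theorem dw_branch_mul_mem_B (S : Finset K)
    (hS : ∀ c ∉ S, (hw_placesOver x c).ncard = finrank K⟮x⟯ F) {h : F} (hh : h ∈ dw_Cfin K x) :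
    (∏ c ∈ S, (x - algebraMap K F c)) * h ∈ dw_B K x := by
  classical
  intro v hv
  obtain ⟨c₀, hc₀⟩ := dw_exists_fiber hx v hv
  have hne : x - algebraMap K F c₀ ≠ 0 := by
    intro h0
    rw [h0] at hc₀
    simp at hc₀
  have hval := hh v c₀ hc₀
  rw [dw_mem_iff_adicValuation_le_one]
  by_cases hcS : c₀ ∈ S
  · rw [← Finset.mul_prod_erase S _ hcS]
    have h1 := dw_adicValuation_prod_eq_one v hc₀ (S.erase c₀) (Finset.notMem_erase c₀ S)
    have : ((x - algebraMap K F c₀) * ∏ c ∈ S.erase c₀, (x - algebraMap K F c)) * h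
        = (h * (x - algebraMap K F c₀)) * ∏ c ∈ S.erase c₀, (x - algebraMap K F c) := by ring
    rw [this, map_mul, h1, mul_one]
    exact hval.le
  · have h1 := dw_adicValuation_prod_eq_one v hc₀ S hcS
    rw [map_mul, h1, one_mul]
    -- unramified at `c₀`
    have hord : v.ord (x - algebraMap K F c₀) = 1 :=
      hw_ord_eq_one_of_ncard x hx c₀ (hS c₀ hcS) v hc₀
    rcases eq_or_ne h 0 with rfl | hh0
    · simp
    · have h2 := (dw_adicValuation_lt_one_iff v (mul_ne_zero hh0 hne)).mp hval
      rw [v.ord_mul hh0 hne, hord] at h2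
      rw [← dw_mem_iff_adicValuation_le_one, dw_mem_iff_ord_nonneg]
      omega

include hx in
/-- An element of `B` vanishing at all places over `S` lies in `g • C`. -/
theorem dw_div_branch_mem_Cfin (S : Finset K) {f : F} (hf : f ∈ dw_B K x)
    (hvan : ∀ (v : Place K F), ∀ c ∈ S, 0 < v.ord (x - algebraMap K F c) →
      v.adicValuation f < 1) :
    (∏ c ∈ S, (x - algebraMap K F c))⁻¹ * f ∈ dw_Cfin K x := by
  classical
  intro v c₀ hc₀
  have hxv : x ∈ v.toValuationSubring := dw_mem_of_ord_sub_pos v hc₀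
  have hfv : v.adicValuation f ≤ 1 := (dw_mem_iff_adicValuation_le_one v f).mp (hf v hxv)
  have hne : x - algebraMap K F c₀ ≠ 0 := by
    intro h0
    rw [h0] at hc₀
    simp at hc₀
  have hlt : v.adicValuation (x - algebraMap K F c₀) < 1 :=
    (dw_adicValuation_lt_one_iff v hne).mpr hc₀
  by_cases hcS : c₀ ∈ S
  · rw [← Finset.mul_prod_erase S _ hcS]
    have h1 := dw_adicValuation_prod_eq_one v hc₀ (S.erase c₀) (Finset.notMem_erase c₀ S)
    have h1' : ∏ c ∈ S.erase c₀, (x - algebraMap K F c) ≠ 0 := by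
      intro h0
      rw [h0, map_zero] at h1
      exact zero_ne_one h1
    have : ((x - algebraMap K F c₀) * ∏ c ∈ S.erase c₀, (x - algebraMap K F c))⁻¹ * f
        * (x - algebraMap K F c₀) = f * (∏ c ∈ S.erase c₀, (x - algebraMap K F c))⁻¹ := by
      field_simp
    rw [this, map_mul, map_inv₀, h1, inv_one, mul_one]
    exact hvan v c₀ hcS hc₀
  · have h1 := dw_adicValuation_prod_eq_one v hc₀ S hcS
    rw [map_mul, map_mul, map_inv₀, h1, inv_one, one_mul]
    calc v.adicValuation f * v.adicValuation (x - algebraMap K F c₀)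
        ≤ 1 * v.adicValuation (x - algebraMap K F c₀) := mul_le_mul_left hfv _
      _ < 1 := by rw [one_mul]; exact hlt

/-- The finite set of places over the values in `S`. -/
noncomputable def dw_branchPlaces (hx : Transcendental K x) (S : Finset K) :
    Finset (Place K F) :=
  haveI : DecidableEq (Place K F) := Classical.decEq _
  S.biUnion fun c => (hw_finite_placesOver x hx c).toFinset

theorem dw_mem_branchPlaces (S : Finset K) (v : Place K F) :
    v ∈ dw_branchPlaces hx S ↔ ∃ c ∈ S, 0 < v.ord (x - algebraMap K F c) := by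
  classical
  simp [dw_branchPlaces, hw_placesOver]

theorem dw_card_branchPlaces (S : Finset K) :
    (dw_branchPlaces hx S).card = ∑ c ∈ S, (hw_placesOver x c).ncard := by
  classical
  rw [dw_branchPlaces, Finset.card_biUnion]
  · refine Finset.sum_congr rfl fun c _ => ?_
    rw [Set.ncard_eq_toFinset_card _ (hw_finite_placesOver x hx c)]
  · intro c _ c' _ hcc'
    rw [Function.onFun, Finset.disjoint_left]
    intro v hv hv'
    simp only [Set.Finite.mem_toFinset, hw_placesOver, Set.mem_setOf_eq] at hv hv'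
    exact hcc' (hw_fiber_disjoint v hv hv')

variable {n : ℕ} {b : Basis (Fin n) K⟮x⟯ F} (hb : dw_Reduced x b)

include hx hb in
/-- **(Br-fin)** the branch bound at the finite places. -/
theorem dw_finrank_Cfin_ge (S : Finset K)
    (hS : ∀ c ∉ S, (hw_placesOver x c).ncard = finrank K⟮x⟯ F) :
    (n : ℤ) * S.card - ∑ c ∈ S, ((hw_placesOver x c).ncard : ℤ)
      ≤ finrank K (↥(dw_Cfin K x) ⧸
          (Subalgebra.toSubmodule (dw_B K x)).submoduleOf (dw_Cfin K x)) := by
  classical
  set Bs := Subalgebra.toSubmodule (dw_B K x) with hBs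
  set p := dw_branchPoly S with hp
  have hp0 : p ≠ 0 := dw_branchPoly_ne_zero S
  have hg : aeval x p = ∏ c ∈ S, (x - algebraMap K F c) := dw_aeval_branchPoly x S
  have hg0 : aeval x p ≠ 0 := fun h => hp0 ((transcendental_iff.mp hx) p h)
  set μ : F →ₗ[K] F := LinearMap.mulLeft K (aeval x p) with hμdef
  have hμ : Function.Injective μ := dw_mulLeft_injective (K := K) hg0
  obtain ⟨hfd, hfr⟩ := dw_finrank_B_quot hx hb p hp0
  rw [dw_natDegree_branchPoly] at hfr
  have hBC : Bs ≤ dw_Cfin K x := dw_B_le_Cfin x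
  have hCB : (dw_Cfin K x).map μ ≤ Bs := by
    rintro _ ⟨h, hh, rfl⟩
    change aeval x p * h ∈ dw_B K x
    rw [hg]
    exact dw_branch_mul_mem_B hx S hS hh
  have hadd := dc_finrank_quot_add μ hμ Bs (dw_Cfin K x) hBC hCB
  -- the residue bound
  have hres := dcr_finrank_quotient_le x Bs ((dw_Cfin K x).map μ) (dw_branchPlaces hx S)
    (by
      intro f hf v hv
      obtain ⟨c, _, hvc⟩ := (dw_mem_branchPlaces hx S v).mp hv
      have hxv : x ∈ v.toValuationSubring := dw_mem_of_ord_sub_pos v hvc
      exact (dw_mem_iff_ord_nonneg v f).mp (hf v hxv))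
    (by
      intro f hf hvan
      refine ⟨(aeval x p)⁻¹ * f, ?_, ?_⟩
      · rw [hg]
        refine dw_div_branch_mem_Cfin hx S hf fun v c hc hvc => ?_
        exact hvan v ((dw_mem_branchPlaces hx S v).mpr ⟨c, hc, hvc⟩)
      · change aeval x p * ((aeval x p)⁻¹ * f) = f
        field_simp)
  rw [dw_card_branchPlaces] at hres
  have h1 : (finrank K (↥(dw_Cfin K x) ⧸ Bs.submoduleOf (dw_Cfin K x)) : ℤ)
      + (finrank K (↥Bs ⧸ ((dw_Cfin K x).map μ).submoduleOf Bs) : ℤ) = (n : ℤ) * S.card := by
    rw [hfr] at hadd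
    exact_mod_cast hadd
  have h2 : (finrank K (↥Bs ⧸ ((dw_Cfin K x).map μ).submoduleOf Bs) : ℤ)
      ≤ ∑ c ∈ S, ((hw_placesOver x c).ncard : ℤ) := by
    exact_mod_cast hres.2
  linarith

end

end Fermat.Agent.S20
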