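import Mathlib
import Fermat.Agent.S20.Reduced.Lattice

/-!
# S20 / count: the trace-dual lattices

`dw_Bd K x` is the trace dual of `dw_B K x` (with respect to `K(x)`), and `dw_Binfd K x m` is the
`m`-th twist of the trace dual of `dw_Binf K x 0`.
-/

set_option autoImplicit false

namespace Fermat.Agent.S20

open AlgebraicCurve IntermediateField Polynomial Fermat.Agent.S24

universe u v
variable {K : Type u} {F : Type v} [Field K] [Field F] [Algebra K F]

/-- The trace `F → K(x)`, with values coerced back to `F`; it is `K`-linear. -/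
noncomputable def dw_tr (K : Type u) {F : Type v} [Field K] [Field F] [Algebra K F] (x : F) :
    F →ₗ[K] F :=
  (K⟮x⟯.val.toLinearMap) ∘ₗ ((Algebra.trace K⟮x⟯ F).restrictScalars K)

theorem dw_tr_apply (x h : F) : dw_tr K x h = ((Algebra.trace K⟮x⟯ F h : K⟮x⟯) : F) := rfl

/-- Trace dual of `dw_B K x`. -/
def dw_Bd (K : Type u) {F : Type v} [Field K] [Field F] [Algebra K F] (x : F) : Submodule K F where
  carrier := {h | ∀ f ∈ dw_B K x, dw_tr K x (h * f) ∈ dw_B K x}
  add_mem' := fun {a b} ha hb f hf => by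
    rw [add_mul, map_add]
    exact (dw_B K x).add_mem (ha f hf) (hb f hf)
  zero_mem' := fun f _ => by
    rw [zero_mul, map_zero]
    exact (dw_B K x).zero_mem
  smul_mem' := fun c h hh f hf => by
    rw [smul_mul_assoc, map_smul]
    exact (dw_B K x).smul_mem (hh f hf) c

theorem dw_mem_Bd {x h : F} :
    h ∈ dw_Bd K x ↔ ∀ f ∈ dw_B K x, dw_tr K x (h * f) ∈ dw_B K x := Iff.rfl

/-- Twisted trace dual of `dw_Binf K x 0`. -/
def dw_Binfd (K : Type u) {F : Type v} [Field K] [Field F] [Algebra K F] (x : F) (m : ℤ) :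
    Submodule K F where
  carrier := {h | ∀ f ∈ dw_Binf K x 0, dw_tr K x (h * f) ∈ dw_Binf K x m}
  add_mem' := fun {a b} ha hb f hf => by
    rw [add_mul, map_add]
    exact (dw_Binf K x m).add_mem (ha f hf) (hb f hf)
  zero_mem' := fun f _ => by
    rw [zero_mul, map_zero]
    exact (dw_Binf K x m).zero_mem
  smul_mem' := fun c h hh f hf => by
    rw [smul_mul_assoc, map_smul]
    exact (dw_Binf K x m).smul_mem c (hh f hf)

theorem dw_mem_Binfd {x h : F} {m : ℤ} :
    h ∈ dw_Binfd K x m ↔ ∀ f ∈ dw_Binf K x 0, dw_tr K x (h * f) ∈ dw_Binf K x m := Iff.rfl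

end Fermat.Agent.S20
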