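import Mathlib
import Fermat.Agent.S20.Reduced.Minima
import Fermat.Agent.S20.Dual.Local
import Fermat.Agent.S20.Count.Defs
import Fermat.Agent.S20.Count.DualDefs
import Fermat.Agent.S20.Count.Index
import Fermat.Agent.S20.Count.Residue

/-!
# S20 / (L-alg) count: inclusions `C ⊆ B^∨`, `C_∞ ⊆ B_∞^∨` and the branch bound at infinity

* `dw_Cfin_le_Bd`: (b2) in lattice language;
* `dw_Cinf_le_Binfd`: (b4) in lattice language;
* `dw_finrank_Cinf_ge`: `dim x^r C_∞ / x^r B_∞ ≥ n - N_∞`.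
-/

set_option autoImplicit false
set_option linter.unusedSectionVars false

namespace Fermat.Agent.S20

open AlgebraicCurve IntermediateField Polynomial Module Fermat.Agent.S24

universe u v
variable {K : Type u} {F : Type v} [Field K] [Field F] [Algebra K F]
variable [IsAlgClosed K] [CharZero K] {x : F}

/-- **(Incl-fin)** `C ⊆ B^∨`. -/
theorem dw_Cfin_le_Bd (hx : Transcendental K x) [FiniteDimensional K⟮x⟯ F] :
    dw_Cfin K x ≤ dw_Bd K x := by
  intro h hh f hf v hv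
  rw [dw_tr_apply, dw_mem_iff_ord_nonneg]
  refine dw_fin_trace hx h hh f (fun w hw => ?_) v ((dw_mem_iff_ord_nonneg v x).mp hv)
  exact (dw_mem_iff_ord_nonneg w f).mp (hf w ((dw_mem_iff_ord_nonneg w x).mpr hw))

/-- The trace is `K(x)`-linear: `Tr (h * x ^ j * f) = Tr (h * f) * x ^ j`. -/
theorem dw_tr_mul_zpow (x h f : F) (j : ℤ) :
    dw_tr K x (h * x ^ j * f) = dw_tr K x (h * f) * x ^ j := by
  rw [dw_tr_apply, dw_tr_apply]
  have hxm : x ∈ K⟮x⟯ := mem_adjoin_simple_self K x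
  have hc : (((⟨x, hxm⟩ : K⟮x⟯) ^ j : K⟮x⟯) : F) = x ^ j :=
    map_zpow₀ (algebraMap K⟮x⟯ F) (⟨x, hxm⟩ : K⟮x⟯) j
  have h1 : h * x ^ j * f = ((⟨x, hxm⟩ : K⟮x⟯) ^ j) • (h * f) := by
    rw [dw_smul_eq_mul, hc]
    ring
  rw [h1, map_smul, smul_eq_mul, MulMemClass.coe_mul, hc]
  ring

/-- **(Incl-inf)** `x^r C_∞ ⊆ x^r B_∞^∨`. -/
theorem dw_Cinf_le_Binfd (hx : Transcendental K x) [FiniteDimensional K⟮x⟯ F] (r : ℤ) :
    dw_Cinf K x r ≤ dw_Binfd K x (-r) := by
  intro h hh f hf v hv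
  have hx0 : x ≠ 0 := dw_x_ne_zero hx
  have hv' : v.ord x < 0 := (dw_not_mem_iff_ord_neg v hx0).mp hv
  rw [← dw_tr_mul_zpow, dw_tr_apply, dw_mem_iff_ord_nonneg]
  refine dw_inf_trace hx (h * x ^ (-r)) hh f (fun w hw => ?_) v hv'
  have := hf w ((dw_not_mem_iff_ord_neg w hx0).mpr hw)
  rw [zpow_zero, mul_one] at this
  exact (dw_mem_iff_ord_nonneg w f).mp this

/-- `x^(-r) • x^r B_∞ = B_∞`. -/
theorem dw_map_mulLeft_zpow_Binf (hx0 : x ≠ 0) (m j : ℤ) :
    (dw_Binf K x m).map (LinearMap.mulLeft K (x ^ j)) = dw_Binf K x (m - j) := by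
  ext f
  rw [Submodule.mem_map]
  constructor
  · rintro ⟨g, hg, rfl⟩
    rw [LinearMap.mulLeft_apply, mul_comm, dw_mul_zpow_mem_Binf hx0]
    convert hg using 2
    ring
  · intro hf
    refine ⟨f * x ^ (-j), ?_, ?_⟩
    · rw [dw_mul_zpow_mem_Binf hx0]
      convert hf using 2
      ring
    · rw [LinearMap.mulLeft_apply, mul_comm, mul_assoc, ← zpow_add₀ hx0]
      simp

/-- **(Br-inf), abstract in (T2).** `dim x^r C_∞ / x^r B_∞ ≥ n - N_∞`, given that
`dim x^r B_∞ / x^(r-1) B_∞ = n`. -/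
theorem dw_finrank_Cinf_ge_of (hx : Transcendental K x) [FiniteDimensional K⟮x⟯ F] (r : ℤ)
    (hT2 : FiniteDimensional K (↥(dw_Binf K x (-r)) ⧸
        ((dw_Binf K x (-r)).map (LinearMap.mulLeft K x⁻¹)).submoduleOf (dw_Binf K x (-r))) ∧
      finrank K (↥(dw_Binf K x (-r)) ⧸
        ((dw_Binf K x (-r)).map (LinearMap.mulLeft K x⁻¹)).submoduleOf (dw_Binf K x (-r))) =
        finrank K⟮x⟯ F) :
    (finrank K⟮x⟯ F : ℤ) - (hw_placesAtInfty (K := K) x).ncard ≤
      finrank K (↥(dw_Cinf K x r) ⧸ (dw_Binf K x (-r)).submoduleOf (dw_Cinf K x r)) := by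
  classical
  have hx0 : x ≠ 0 := dw_x_ne_zero hx
  have hxi0 : x⁻¹ ≠ 0 := inv_ne_zero hx0
  set B := dw_Binf K x (-r) with hB
  set C := dw_Cinf K x r with hC
  set μ : F →ₗ[K] F := LinearMap.mulLeft K x⁻¹ with hμ
  have hμinj : Function.Injective μ := fun a b hab => mul_left_cancel₀ hxi0 hab
  have hBC : B ≤ C := dw_Binf_le_Cinf x r
  have hCB : C.map μ ≤ B := by
    rintro _ ⟨h, hh, rfl⟩
    exact dw_inv_mul_mem_Binf hh
  have hfd := hT2.1
  have hadd := dc_finrank_quot_add μ hμinj B C hBC hCB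
  rw [hT2.2] at hadd
  -- transport by `x^(-r)` to `B_∞`
  set ν : F →ₗ[K] F := LinearMap.mulLeft K (x ^ (-r)) with hν
  have hνinj : Function.Injective ν := fun a b hab => mul_left_cancel₀ (zpow_ne_zero _ hx0) hab
  have htr := dc_finrank_quot_map ν hνinj (C.map μ) B
  set P : Finset (Place K F) := (hw_finite_placesAtInfty x hx).toFinset with hP
  have hPmem : ∀ v, v ∈ P ↔ v.ord x < 0 := by
    intro v
    rw [hP, Set.Finite.mem_toFinset]
    rfl
  have hres := dcr_finrank_quotient_le x (B.map ν) ((C.map μ).map ν) P (by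
      rintro _ ⟨g, hg, rfl⟩ v hv
      rw [LinearMap.mulLeft_apply, ← dw_mem_iff_ord_nonneg, mul_comm]
      exact hg v ((dw_not_mem_iff_ord_neg v hx0).mpr ((hPmem v).mp hv))) (by
      rintro _ ⟨g, hg, rfl⟩ hlt
      refine ⟨x⁻¹ * (x * g), ⟨x * g, ?_, rfl⟩, ?_⟩
      · intro v hv
        have := hlt v ((hPmem v).mpr hv)
        rw [LinearMap.mulLeft_apply] at this
        have e : x * g * x ^ (-r) * x⁻¹ = x ^ (-r) * g := by
          field_simp
        rw [e]
        exact this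
      · rw [LinearMap.mulLeft_apply, LinearMap.mulLeft_apply]
        field_simp)
  have hcard : P.card = (hw_placesAtInfty (K := K) x).ncard := by
    rw [hP, Set.ncard_eq_toFinset_card _ (hw_finite_placesAtInfty x hx)]
  rw [htr, hcard] at hres
  have := hres.2
  omega

end Fermat.Agent.S20
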