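import Mathlib
import Fermat.Agent.S20.Count.Steps
import Fermat.Agent.S20.Count.BranchInf

/-!
# S20 / (L-alg) count: the branch bound at infinity, final form

`dw_finrank_Cinf_ge` (Br-inf): for a reduced basis `b` of `F / K(x)` of size `n` and
`r ≥ max deg b_i`, `dim_K x^r C_∞ / x^r B_∞ ≥ n - N_∞`, where `N_∞` is the number of places
over `x = ∞`.  Obtained from the abstract bound `dw_finrank_Cinf_ge_of` and (T2)
`dw_finrank_Binf_quot`.
-/

set_option autoImplicit false
set_option linter.unusedSectionVars false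

namespace Fermat.Agent.S20

open AlgebraicCurve IntermediateField Polynomial Module Fermat.Agent.S24

universe u v
variable {K : Type u} {F : Type v} [Field K] [Field F] [Algebra K F]
variable [IsAlgClosed K] [CharZero K] {x : F}

/-- **(Br-inf)** `dim x^r C_∞ / x^r B_∞ ≥ n - N_∞`. -/
theorem dw_finrank_Cinf_ge (hx : Transcendental K x) [FiniteDimensional K⟮x⟯ F] {n : ℕ}
    {b : Basis (Fin n) K⟮x⟯ F} (hb : dw_Reduced x b) (r : ℤ)
    (hr : ∀ i, dw_deg K x (b i) ≤ r) :
    (n : ℤ) - (hw_placesAtInfty (K := K) x).ncard ≤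
      finrank K (↥(dw_Cinf K x r) ⧸ (dw_Binf K x (-r)).submoduleOf (dw_Cinf K x r)) := by
  have hx0 : x ≠ 0 := dw_x_ne_zero hx
  have hn : finrank K⟮x⟯ F = n := by
    rw [Module.finrank_eq_card_basis b, Fintype.card_fin]
  have hmap : (dw_Binf K x (-r)).map (LinearMap.mulLeft K x⁻¹) = dw_Binf K x (-r + 1) :=
    dw_map_inv_Binf (K := K) hx0 r
  have hT2 := dw_finrank_Binf_quot hx hb r hr
  rw [← hmap, ← hn] at hT2
  have := dw_finrank_Cinf_ge_of hx r hT2
  rwa [hn] at this

end Fermat.Agent.S20
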