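import Mathlib
import Fermat.Agent.S24.Hurwitz.Interface
import Fermat.Agent.S20.Count.Residue
import Fermat.Agent.S20.Dual.Places

/-!
# S20 / (L-alg) count: regularity criterion for `h dx`

`h dx` is a regular differential as soon as `h` satisfies the tame different bounds
`ord_v h ≥ 1 - e_v` at the finite places and `ord_v h ≥ 1 + e_v` at the places over infinity.
These are exactly the conclusions of (b1) (`dw_fin_tame`) for `h` and of (b3) (`dw_inf_tame`)
for `h * x ^ 2`.
-/

set_option autoImplicit false

namespace Fermat.Agent.S20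

open AlgebraicCurve IntermediateField KaehlerDifferential Fermat.Agent.S24

universe u v
variable {K : Type u} {F : Type v} [Field K] [Field F] [Algebra K F]
variable [IsAlgClosed K] [CharZero K]

theorem dcr_ordDifferential_zero {x : F} (hx : Transcendental K x) [FiniteDimensional K⟮x⟯ F]
    (v : Place K F) : v.ordDifferential (0 : Ω[F⁄K]) = 0 := by
  have := hx
  rw [hw_ordDifferential_eq x v (g := 0) (by simp)]
  simp

/-- **Regularity criterion.** -/
theorem dcr_regular_of_tame {x : F} (hx : Transcendental K x) [FiniteDimensional K⟮x⟯ F] (h : F)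
    (Hfin : ∀ (v : Place K F) (c : K), 0 < v.ord (x - algebraMap K F c) →
      v.adicValuation (h * (x - algebraMap K F c)) < 1)
    (Hinf : ∀ v : Place K F, v.ord x < 0 → v.adicValuation (h * x) < 1) (v : Place K F) :
    0 ≤ v.ordDifferential (h • D K F x) := by
  rcases eq_or_ne h 0 with rfl | hh
  · rw [zero_smul, dcr_ordDifferential_zero hx]
  rw [hw_ordDifferential_smul hx v hh (hw_D_ne_zero hx)]
  by_cases hv : v.ord x < 0
  · rw [hw_ordDifferential_D hx v (ne_of_lt hv)]
    have hx0 : x ≠ 0 := by
      rintro rfl
      simp at hv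
    have h1 := (dw_adicValuation_lt_one_iff v (mul_ne_zero hh hx0)).mp (Hinf v hv)
    rw [v.ord_mul hh hx0] at h1
    omega
  · push Not at hv
    have hxv : x ∈ v.toValuationSubring := (dw_mem_iff_ord_nonneg v x).mpr hv
    obtain ⟨c, hc | hc⟩ := hw_exists_const x v hxv
    · exact absurd (hc ▸ isAlgebraic_algebraMap c) hx
    · rw [hw_ordDifferential_D_sub_const hx v c (ne_of_gt hc)]
      have hne : x - algebraMap K F c ≠ 0 := by
        intro h0
        rw [h0] at hc
        simp at hc
      have h1 := (dw_adicValuation_lt_one_iff v (mul_ne_zero hh hne)).mp (Hfin v c hc)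
      rw [v.ord_mul hh hne] at h1
      omega

/-- The criterion with the condition over infinity in the shape of the conclusion of (b3)
applied to `h * x ^ 2`. -/
theorem dcr_regular_of_tame' {x : F} (hx : Transcendental K x) [FiniteDimensional K⟮x⟯ F] (h : F)
    (Hfin : ∀ (v : Place K F) (c : K), 0 < v.ord (x - algebraMap K F c) →
      v.adicValuation (h * (x - algebraMap K F c)) < 1)
    (Hinf : ∀ v : Place K F, v.ord x < 0 → v.adicValuation (h * x ^ 2 * x⁻¹) < 1)
    (v : Place K F) : 0 ≤ v.ordDifferential (h • D K F x) := by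
  refine dcr_regular_of_tame hx h Hfin (fun w hw => ?_) v
  have hx0 : x ≠ 0 := by
    rintro rfl
    simp at hw
  have : h * x ^ 2 * x⁻¹ = h * x := by
    field_simp
  rw [← this]
  exact Hinf w hw

/-- **Regular differentials from the trace-dual condition at the finite places** ((b1) plugged
in); the condition over infinity is kept in valuation form. -/
theorem dcr_regular_of_dual_fin {x : F} (hx : Transcendental K x) [FiniteDimensional K⟮x⟯ F]
    (h : F)
    (H : ∀ f : F, (∀ v : Place K F, 0 ≤ v.ord x → 0 ≤ v.ord f) →
      ∀ v : Place K F, 0 ≤ v.ord x → 0 ≤ v.ord ((Algebra.trace K⟮x⟯ F (h * f) : K⟮x⟯) : F))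
    (Hinf : ∀ v : Place K F, v.ord x < 0 → v.adicValuation (h * x ^ 2 * x⁻¹) < 1)
    (v : Place K F) : 0 ≤ v.ordDifferential (h • D K F x) :=
  dcr_regular_of_tame' hx h (fun w c hwc => dw_fin_tame hx h H w c hwc) Hinf v

end Fermat.Agent.S20
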