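import Mathlib
import Fermat.Agent.S20.Reduced.Dual
import Fermat.Agent.S20.Dual.Local
import Fermat.Agent.S20.Count.RegCrit

/-!
# S20 / (L-alg) count: the regular differentials `x ^ k * b_i^* dx`

For a reduced basis `b` with exponents `a i = dw_deg K x (b i)` and trace-dual basis `b^*`, the
differentials `x ^ k * b_i^* dx` with `k + 2 ≤ a i` are regular and `K`-linearly independent.
-/

set_option autoImplicit false

namespace Fermat.Agent.S20

open AlgebraicCurve IntermediateField Polynomial Module KaehlerDifferential Fermat.Agent.S24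

universe u v
variable {K : Type u} {F : Type v} [Field K] [Field F] [Algebra K F]

section
variable [IsAlgClosed K] [CharZero K] {x : F} (hx : Transcendental K x) [FiniteDimensional K⟮x⟯ F]

omit [IsAlgClosed K] [CharZero K] [FiniteDimensional K⟮x⟯ F] in
theorem dw_mem_B_iff_forall_ord {f : F} :
    f ∈ dw_B K x ↔ ∀ v : Place K F, 0 ≤ v.ord x → 0 ≤ v.ord f := by
  rw [dw_mem_B]
  refine forall_congr' fun v => ?_
  rw [dw_mem_iff_ord_nonneg, dw_mem_iff_ord_nonneg]

omit [IsAlgClosed K] [CharZero K] [FiniteDimensional K⟮x⟯ F] in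
theorem dw_mem_Binf_zero_iff_forall_ord (hx0 : x ≠ 0) {f : F} :
    f ∈ dw_Binf K x 0 ↔ ∀ v : Place K F, v.ord x < 0 → 0 ≤ v.ord f := by
  rw [dw_mem_Binf]
  refine forall_congr' fun v => ?_
  rw [dw_not_mem_iff_ord_neg v hx0, zpow_zero, mul_one, dw_mem_iff_ord_nonneg]

variable {n : ℕ} {b : Basis (Fin n) K⟮x⟯ F} (hb : dw_Reduced x b)

include hx hb in
/-- The differentials `x ^ k * b_i^* dx`, `k + 2 ≤ a i`, are regular. -/
theorem dw_Reduced.regular (i : Fin n) (k : ℕ) (hk : (k : ℤ) + 2 ≤ dw_deg K x (b i))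
    (v : Place K F) :
    0 ≤ v.ordDifferential ((x ^ k * dwd_dualBasis b i) • D K F x) := by
  have hx0 := dw_x_ne_zero hx
  have hxk : x ^ k ∈ K⟮x⟯ := pow_mem (mem_adjoin_simple_self K x) k
  have hxk2 : x ^ (k + 2) ∈ K⟮x⟯ := pow_mem (mem_adjoin_simple_self K x) (k + 2)
  have h1 : x ^ k * dwd_dualBasis b i ∈ dw_Bdual K x := by
    rw [hb.mem_Bdual_iff hx]
    intro j
    rw [mul_assoc, dwd_tr_mul_of_mem hxk, dwd_tr_dualBasis_mul]
    split_ifs
    · rw [mul_one]
      exact (dw_B K x).pow_mem (fun v hv => hv) k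
    · rw [mul_zero]
      exact (dw_B K x).zero_mem
  have h2 : x ^ k * dwd_dualBasis b i * x ^ 2 ∈ dw_Binfdual K x 0 := by
    rw [hb.mem_Binfdual_iff hx]
    intro j
    have : x ^ k * dwd_dualBasis b i * x ^ 2 * b j = x ^ (k + 2) * (dwd_dualBasis b i * b j) := by
      ring
    rw [this, dwd_tr_mul_of_mem hxk2, dwd_tr_dualBasis_mul]
    split_ifs with hji
    · rw [mul_one, hji]
      have h3 := dw_unitInf_mem_Binf (dw_unitInf_zpow (K := K) (x := x) ((k + 2 : ℕ) : ℤ))
      rw [zpow_natCast] at h3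
      exact dw_Binf_anti x (by push_cast; omega) h3
    · rw [mul_zero]
      exact Submodule.zero_mem _
  refine dcr_regular_of_dual_fin hx _ ?_ ?_ v
  · intro f hf w hw
    have hfB : f ∈ dw_B K x := dw_mem_B_iff_forall_ord.mpr hf
    exact dw_mem_B_iff_forall_ord.mp (h1 f hfB) w hw
  · intro w hw
    refine dw_inf_tame hx _ ?_ w hw
    intro f hf u hu
    have hfB : f ∈ dw_Binf K x 0 := (dw_mem_Binf_zero_iff_forall_ord hx0).mpr hf
    exact (dw_mem_Binf_zero_iff_forall_ord hx0).mp (h2 f hfB) u hu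

include hx in
omit [IsAlgClosed K] [CharZero K] [FiniteDimensional K⟮x⟯ F] in
/-- The functions `x ^ k * b'_i` are `K`-linearly independent, for any basis `b'`. -/
theorem dw_linearIndependent_pow_mul (b' : Basis (Fin n) K⟮x⟯ F) (a : Fin n → ℕ) :
    LinearIndependent K (fun p : (i : Fin n) × Fin (a i) => x ^ (p.2 : ℕ) * b' p.1) := by
  classical
  rw [Fintype.linearIndependent_iff]
  intro g hg p
  rw [Fintype.sum_sigma] at hg
  set q : Fin n → K[X] := fun i => ∑ k : Fin (a i), C (g ⟨i, k⟩) * X ^ (k : ℕ) with hq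
  have hsum : ∑ i, ((⟨aeval x (q i), dw_aeval_mem_adjoin (q i)⟩ : K⟮x⟯) : F) * b' i = 0 := by
    rw [← hg]
    refine Finset.sum_congr rfl fun i _ => ?_
    simp only [hq, map_sum, map_mul, aeval_C, map_pow, aeval_X, Finset.sum_mul]
    refine Finset.sum_congr rfl fun k _ => ?_
    rw [Algebra.smul_def, mul_assoc]
  have hzero : ∀ i, q i = 0 := by
    intro i
    have h1 := dw_repr_sum b' (fun i => (⟨aeval x (q i), dw_aeval_mem_adjoin (q i)⟩ : K⟮x⟯)) i
    rw [hsum] at h1
    simp only [map_zero, Finsupp.coe_zero, Pi.zero_apply] at h1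
    have h2 : aeval x (q i) = 0 := (congrArg Subtype.val h1).symm
    exact (transcendental_iff.mp hx) (q i) h2
  obtain ⟨i, k⟩ := p
  have h3 := congrArg (fun r : K[X] => r.coeff (k : ℕ)) (hzero i)
  simp only [hq, finsetSum_coeff, coeff_C_mul, coeff_X_pow, coeff_zero] at h3
  rw [Finset.sum_eq_single k] at h3
  · simpa using h3
  · intro k' _ hk'
    have : (k : ℕ) ≠ (k' : ℕ) := fun h => hk' (Fin.ext h.symm)
    simp [this]
  · intro h; exact absurd (Finset.mem_univ k) h

include hx hb in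
/-- **The regular differentials of a reduced basis.** -/
theorem dw_Reduced.exists_regular_family :
    ∃ h : ((i : Fin n) × Fin ((dw_deg K x (b i)).toNat - 1)) → F,
      LinearIndependent K h ∧ ∀ p (v : Place K F), 0 ≤ v.ordDifferential (h p • D K F x) := by
  refine ⟨fun p => x ^ (p.2 : ℕ) * dwd_dualBasis b p.1,
    dw_linearIndependent_pow_mul hx (dwd_dualBasis b) _, ?_⟩
  rintro ⟨i, k⟩ v
  refine hb.regular hx i k ?_ v
  have := k.2
  have h0 := hb.deg_nonneg hx i
  omega

include hx hb in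
/-- The same statement under the name fixed by the architecture. -/
theorem dw_regular_family :
    ∃ h : ((i : Fin n) × Fin ((dw_deg K x (b i)).toNat - 1)) → F,
      LinearIndependent K h ∧
        ∀ p (v : Place K F), 0 ≤ v.ordDifferential (h p • KaehlerDifferential.D K F x) :=
  hb.exists_regular_family hx

end

end Fermat.Agent.S20
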