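import Mathlib
import Fermat.Agent.S20.Count.BranchFin
import Fermat.Agent.S20.Count.BranchInfFinal
import Fermat.Agent.S20.Reduced.DimDual
import Fermat.Agent.S20.Count.Regular

/-!
# S20 / (L-alg): existence of `g` independent regular differentials (assembly)
-/

set_option autoImplicit false

namespace Fermat.Agent.S20

open AlgebraicCurve IntermediateField Polynomial Module
open Fermat.Agent.S24

universe u v
variable {K : Type u} {F : Type v} [Field K] [Field F] [Algebra K F]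
variable [IsAlgClosed K] [CharZero K]

/-- The inequality `2 ∑ a_i ≥ ∑_{c ∈ S} (n - N_c) + (n - N_∞)` for a reduced basis. -/
theorem dwm_two_sum_deg_ge {x : F} (hx : Transcendental K x) [FiniteDimensional K⟮x⟯ F] {n : ℕ}
    {b : Basis (Fin n) K⟮x⟯ F} (hb : dw_Reduced x b) (S : Finset K)
    (hS : ∀ c ∉ S, (hw_placesOver x c).ncard = finrank K⟮x⟯ F) :
    ∑ c ∈ S, ((n : ℤ) - (hw_placesOver x c).ncard) + ((n : ℤ) - (hw_placesAtInfty (K := K) x).ncard)
      ≤ 2 * ∑ i, dw_deg K x (b i) := by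
  classical
  set Bs := Subalgebra.toSubmodule (dw_B K x) with hBs
  set r : ℤ := ∑ i, dw_deg K x (b i) with hrdef
  have hr : ∀ i, dw_deg K x (b i) ≤ r := fun i =>
    Finset.single_le_sum (f := fun i => dw_deg K x (b i))
      (fun j _ => hb.deg_nonneg hx j) (Finset.mem_univ i)
  have hr0 : 0 ≤ r := Finset.sum_nonneg fun j _ => hb.deg_nonneg hx j
  have hr1 : ∀ i, dw_deg K x (b i) ≤ r + 1 := fun i => by have := hr i; omega
  have hM : Bs ≤ dw_Bd K x := dw_B_le_Bd hx hb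
  have hN : dw_Binf K x (-r) ≤ dw_Binfd K x (-r) := dw_Binf_le_Binfd hx hb (-r)
  have htop : Bs ⊔ dw_Binf K x (-r) = ⊤ := dw_sup_eq_top hx hb r hr1
  obtain ⟨hfd, hfr⟩ := dw_finrank_inf_dual hx hb r (by omega)
  obtain ⟨_, hfr1⟩ := dw_finrank_inf hx hb r hr1
  have hidx := dc_index_formula Bs (dw_Bd K x) (dw_Binf K x (-r)) (dw_Binfd K x (-r)) hM hN htop
  have hfdM := dc_index_finiteDimensional_left Bs (dw_Bd K x) (dw_Binf K x (-r))
    (dw_Binfd K x (-r)) hM hN htop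
  have hfdN := dc_index_finiteDimensional_right Bs (dw_Bd K x) (dw_Binf K x (-r))
    (dw_Binfd K x (-r)) hM hN htop
  -- the towers
  have hT1 := dc_finrank_tower Bs (dw_Cfin K x) (dw_Bd K x) (dw_B_le_Cfin x) (dw_Cfin_le_Bd hx)
  have hT2 := dc_finrank_tower (dw_Binf K x (-r)) (dw_Cinf K x r) (dw_Binfd K x (-r))
    (dw_Binf_le_Cinf x r) (dw_Cinf_le_Binfd hx r)
  have hB1 := dw_finrank_Cfin_ge hx hb S hS
  have hB2 := dw_finrank_Cinf_ge hx hb r hr
  have hidx' : (finrank K ↥(dw_Bd K x ⊓ dw_Binfd K x (-r)) : ℤ)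
      = (finrank K ↥(Bs ⊓ dw_Binf K x (-r)) : ℤ)
        + (finrank K (↥(dw_Bd K x) ⧸ Bs.submoduleOf (dw_Bd K x)) : ℤ)
        + (finrank K (↥(dw_Binfd K x (-r)) ⧸
            (dw_Binf K x (-r)).submoduleOf (dw_Binfd K x (-r))) : ℤ) := by
    exact_mod_cast hidx
  rw [hfr, hfr1] at hidx'
  have hT1' : (finrank K (↥(dw_Bd K x) ⧸ Bs.submoduleOf (dw_Bd K x)) : ℤ)
      = (finrank K (↥(dw_Bd K x) ⧸ (dw_Cfin K x).submoduleOf (dw_Bd K x)) : ℤ)
        + (finrank K (↥(dw_Cfin K x) ⧸ Bs.submoduleOf (dw_Cfin K x)) : ℤ) := by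
    exact_mod_cast hT1
  have hT2' : (finrank K (↥(dw_Binfd K x (-r)) ⧸
        (dw_Binf K x (-r)).submoduleOf (dw_Binfd K x (-r))) : ℤ)
      = (finrank K (↥(dw_Binfd K x (-r)) ⧸
          (dw_Cinf K x r).submoduleOf (dw_Binfd K x (-r))) : ℤ)
        + (finrank K (↥(dw_Cinf K x r) ⧸
          (dw_Binf K x (-r)).submoduleOf (dw_Cinf K x r)) : ℤ) := by
    exact_mod_cast hT2
  have hsum1 : ∑ i : Fin n, (r + dw_deg K x (b i) + 1)
      = ∑ i : Fin n, (r - dw_deg K x (b i) + 1) + 2 * ∑ i, dw_deg K x (b i) := by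
    rw [Finset.mul_sum, ← Finset.sum_add_distrib]
    exact Finset.sum_congr rfl fun i _ => by ring
  have hsumS : ∑ c ∈ S, ((n : ℤ) - (hw_placesOver x c).ncard)
      = (n : ℤ) * S.card - ∑ c ∈ S, ((hw_placesOver x c).ncard : ℤ) := by
    rw [Finset.sum_sub_distrib]
    simp [mul_comm]
  have hnn1 : (0 : ℤ) ≤
      (finrank K (↥(dw_Bd K x) ⧸ (dw_Cfin K x).submoduleOf (dw_Bd K x)) : ℤ) :=
    Int.natCast_nonneg _
  have hnn2 : (0 : ℤ) ≤ (finrank K (↥(dw_Binfd K x (-r)) ⧸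
          (dw_Cinf K x r).submoduleOf (dw_Binfd K x (-r))) : ℤ) := Int.natCast_nonneg _
  rw [hsumS]
  linarith

/-- The count of regular differentials for a reduced basis. -/
theorem dwm_exists_regular_of_reduced {x : F} (hx : Transcendental K x) [FiniteDimensional K⟮x⟯ F]
    {n : ℕ} {b : Basis (Fin n) K⟮x⟯ F} (hb : dw_Reduced x b)
    (S : Finset K) (hS : ∀ c ∉ S, (hw_placesOver x c).ncard = finrank K⟮x⟯ F) (g : ℕ)
    (hg : 2 * (g : ℤ) - 2 = - 2 * (n : ℤ)
      + ∑ c ∈ S, ((n : ℤ) - (hw_placesOver x c).ncard)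
      + ((n : ℤ) - (hw_placesAtInfty (K := K) x).ncard)) :
    ∃ h : Fin g → F, LinearIndependent K h ∧
      ∀ i (v : Place K F), 0 ≤ v.ordDifferential (h i • KaehlerDifferential.D K F x) := by
  classical
  have hkey := dwm_two_sum_deg_ge hx hb S hS
  obtain ⟨h, hli, hreg⟩ := dw_regular_family hx hb
  obtain ⟨i₀, hi₀⟩ := hb.exists_deg_eq_zero hx
  -- the natural-number exponents
  have haa : ∀ i, (((dw_deg K x (b i)).toNat : ℕ) : ℤ) = dw_deg K x (b i) := fun i =>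
    Int.toNat_of_nonneg (hb.deg_nonneg hx i)
  have h0 : (dw_deg K x (b i₀)).toNat = 0 := by rw [hi₀]; rfl
  have hpred := dc_sum_pred_ge (fun i => (dw_deg K x (b i)).toNat) i₀ h0
  have hcard : Fintype.card ((i : Fin n) × Fin ((dw_deg K x (b i)).toNat - 1))
      = ∑ i, ((dw_deg K x (b i)).toNat - 1) := dc_card_pairs _
  have hsumcast : ∑ i, (((dw_deg K x (b i)).toNat : ℕ) : ℤ) = ∑ i, dw_deg K x (b i) :=
    Finset.sum_congr rfl fun i _ => haa i
  have hle : g ≤ Fintype.card ((i : Fin n) × Fin ((dw_deg K x (b i)).toNat - 1)) := by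
    rw [hcard]
    have h1 : ((∑ i, (dw_deg K x (b i)).toNat + 1 : ℕ) : ℤ)
        ≤ ((∑ i, ((dw_deg K x (b i)).toNat - 1) + n : ℕ) : ℤ) := by exact_mod_cast hpred
    push_cast at h1
    rw [hsumcast] at h1
    have h2 : (g : ℤ) ≤ ((∑ i, ((dw_deg K x (b i)).toNat - 1) : ℕ) : ℤ) := by
      push_cast
      linarith
    exact_mod_cast h2
  have hle' : Fintype.card (Fin g)
      ≤ Fintype.card ((i : Fin n) × Fin ((dw_deg K x (b i)).toNat - 1)) := by
    simpa using hle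
  obtain ⟨e⟩ := Function.Embedding.nonempty_of_card_le hle'
  exact ⟨h ∘ e, hli.comp e e.injective, fun i v => hreg (e i) v⟩

/-- **(L-alg), final statement.** -/
theorem dwm_exists_regular (x : F) (hx : Transcendental K x) [FiniteDimensional K⟮x⟯ F]
    (S : Finset K) (hS : ∀ c ∉ S, (hw_placesOver x c).ncard = finrank K⟮x⟯ F) (g : ℕ)
    (hg : 2 * (g : ℤ) - 2 = - 2 * (finrank K⟮x⟯ F : ℤ)
      + ∑ c ∈ S, ((finrank K⟮x⟯ F : ℤ) - (hw_placesOver x c).ncard)
      + ((finrank K⟮x⟯ F : ℤ) - (hw_placesAtInfty (K := K) x).ncard)) :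
    ∃ h : Fin g → F, LinearIndependent K h ∧
      ∀ i (v : Place K F), 0 ≤ v.ordDifferential (h i • KaehlerDifferential.D K F x) := by
  obtain ⟨b, hb⟩ := dw_exists_reduced_basis hx
  exact dwm_exists_regular_of_reduced hx hb S hS g hg

end Fermat.Agent.S20
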